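import Mathlib
import Fermat.Prelude.Def_AlgebraicCurve_CanonicalDivisor

/-!
# X0 / ACL, part 1: basic facts on `Place.ord` and places attached to integer valued valuations

* `acl_mem_iff_ord_nonneg` : for `f ≠ 0`, `f ∈ O_v ↔ 0 ≤ v.ord f`;
* `acl_ord_add` : `min (v.ord f) (v.ord g) ≤ v.ord (f + g)` for `f + g ≠ 0`;
* `acl_ord_algebraMap` : nonzero constants have order `0`;
* `IsValFun K w` : `w : F → ℤ` is a valuation (on nonzero elements) trivial on `K`;
* `IsValFun.place` : the place attached to a non-trivial `w`;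
* `IsValFun.exists_eq_mul_ord` : `w f = m * ord f` with `m > 0`, `m = w t` for a uniformizer `t`.
-/

set_option autoImplicit false

open AlgebraicCurve IsDedekindDomain WithZero

namespace Fermat.Agent.X0

variable {K F : Type*} [Field K] [Field F] [Algebra K F]

section Basic

variable (v : Place K F)

theorem acl_exists_irreducible : ∃ π : v.toValuationSubring, Irreducible π :=
  IsDiscreteValuationRing.exists_irreducible _

theorem acl_ord_nonneg_of_mem {f : F} (hf : f ∈ v.toValuationSubring) : 0 ≤ v.ord f := by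
  rcases eq_or_ne f 0 with rfl | hf0
  · simp
  have h1 : v.adicValuation f ≤ 1 := by
    have := v.adicValuation_coe ⟨f, hf⟩
    simp only at this
    rw [this]
    exact HeightOneSpectrum.intValuation_le_one _ _
  have h2 : WithZero.log (v.adicValuation f) ≤ 0 := by
    rw [← WithZero.log_one, WithZero.log_le_log (v.adicValuation_ne_zero hf0) one_ne_zero]
    exact h1
  unfold Place.ord
  omega

theorem acl_mem_of_ord_nonneg {f : F} (h : 0 ≤ v.ord f) : f ∈ v.toValuationSubring := by
  rcases eq_or_ne f 0 with rfl | hf0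
  · exact zero_mem _
  obtain ⟨π, hπ⟩ := acl_exists_irreducible v
  obtain ⟨u, hu⟩ := v.exists_unit_mul_zpow hf0 hπ
  rw [hu]
  refine mul_mem (Subtype.mem _) ?_
  obtain ⟨k, hk⟩ := Int.eq_ofNat_of_zero_le h
  rw [hk, zpow_natCast]
  exact pow_mem (Subtype.mem _) _

theorem acl_mem_iff_ord_nonneg {f : F} (_hf : f ≠ 0) :
    f ∈ v.toValuationSubring ↔ 0 ≤ v.ord f :=
  ⟨acl_ord_nonneg_of_mem v, acl_mem_of_ord_nonneg v⟩

theorem acl_ord_neg (f : F) : v.ord (-f) = v.ord f := by
  unfold Place.ord
  rw [Valuation.map_neg]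

theorem acl_ord_add {f g : F} (hfg : f + g ≠ 0) : min (v.ord f) (v.ord g) ≤ v.ord (f + g) := by
  rcases eq_or_ne f 0 with rfl | hf
  · rw [zero_add]; exact min_le_right _ _
  rcases eq_or_ne g 0 with rfl | hg
  · rw [add_zero]; exact min_le_left _ _
  have h := Valuation.map_add v.adicValuation f g
  have hf' := v.adicValuation_ne_zero hf
  have hg' := v.adicValuation_ne_zero hg
  have hfg' := v.adicValuation_ne_zero hfg
  unfold Place.ord
  rcases le_max_iff.mp h with h1 | h1
  · have := (WithZero.log_le_log hfg' hf').mpr h1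
    exact (min_le_left _ _).trans (by omega)
  · have := (WithZero.log_le_log hfg' hg').mpr h1
    exact (min_le_right _ _).trans (by omega)

theorem acl_ord_algebraMap {a : K} (ha : a ≠ 0) : v.ord (algebraMap K F a) = 0 := by
  have h0 : algebraMap K F a ≠ 0 := by
    rw [ne_eq, FaithfulSMul.algebraMap_eq_zero_iff]; exact ha
  have h1 := acl_ord_nonneg_of_mem v (v.algebraMap_mem' a)
  have h2 := acl_ord_nonneg_of_mem v (v.algebraMap_mem' a⁻¹)
  rw [map_inv₀, v.ord_inv] at h2
  omega

theorem acl_ord_pow (f : F) (n : ℕ) : v.ord (f ^ n) = n * v.ord f := by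
  have := v.ord_zpow f n
  rwa [zpow_natCast] at this

theorem acl_ord_div {f g : F} (hf : f ≠ 0) (hg : g ≠ 0) : v.ord (f / g) = v.ord f - v.ord g := by
  rw [div_eq_mul_inv, v.ord_mul hf (inv_ne_zero hg), v.ord_inv]; ring

/-- there is a uniformizer in `F` -/
theorem acl_exists_ord_eq_one : ∃ t : F, t ≠ 0 ∧ v.ord t = 1 ∧ t ∈ v.toValuationSubring := by
  obtain ⟨π, hπ⟩ := acl_exists_irreducible v
  refine ⟨π, ?_, v.ord_coe_irreducible hπ, Subtype.mem _⟩
  simpa [ne_eq, ZeroMemClass.coe_eq_zero] using hπ.ne_zero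

end Basic

/-- `w : F → ℤ` behaves like a (not necessarily normalised) discrete valuation on the nonzero
elements of `F`, trivial on the constants `K`. -/
structure IsValFun (K : Type*) {F : Type*} [Field K] [Field F] [Algebra K F] (w : F → ℤ) :
    Prop where
  map_mul : ∀ f g, f ≠ 0 → g ≠ 0 → w (f * g) = w f + w g
  map_add : ∀ f g, f ≠ 0 → g ≠ 0 → f + g ≠ 0 → min (w f) (w g) ≤ w (f + g)
  map_const : ∀ a : K, a ≠ 0 → w (algebraMap K F a) = 0

namespace IsValFun

variable {w : F → ℤ} (hw : IsValFun K w)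
include hw

theorem map_one : w 1 = 0 := by
  have := hw.map_mul 1 1 one_ne_zero one_ne_zero
  rw [mul_one] at this
  omega

theorem map_neg_one : w (-1) = 0 := by
  have h := hw.map_mul (-1) (-1) (by simp) (by simp)
  rw [neg_mul_neg, mul_one, hw.map_one] at h
  omega

theorem map_neg {f : F} (hf : f ≠ 0) : w (-f) = w f := by
  have h := hw.map_mul (-1) f (by simp) hf
  rw [neg_one_mul, hw.map_neg_one, zero_add] at h
  exact h

theorem map_inv {f : F} (hf : f ≠ 0) : w f⁻¹ = - w f := by
  have h := hw.map_mul f f⁻¹ hf (inv_ne_zero hf)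
  rw [mul_inv_cancel₀ hf, hw.map_one] at h
  omega

theorem map_pow {f : F} (hf : f ≠ 0) (n : ℕ) : w (f ^ n) = n * w f := by
  induction n with
  | zero => simp [hw.map_one]
  | succ k ih =>
    rw [pow_succ, hw.map_mul _ _ (pow_ne_zero k hf) hf, ih]
    push_cast; ring

theorem map_zpow {f : F} (hf : f ≠ 0) (n : ℤ) : w (f ^ n) = n * w f := by
  obtain ⟨k, rfl | rfl⟩ := n.eq_nat_or_neg
  · rw [zpow_natCast, hw.map_pow hf]
  · rw [zpow_neg, zpow_natCast, hw.map_inv (pow_ne_zero k hf), hw.map_pow hf]; ring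

/-- the valuation ring `{f | f = 0 ∨ 0 ≤ w f}` -/
def valSubring : ValuationSubring F where
  carrier := {f | f = 0 ∨ 0 ≤ w f}
  mul_mem' := by
    rintro a b (rfl | ha) hb
    · left; simp
    rcases hb with rfl | hb
    · left; simp
    by_cases ha0 : a = 0
    · left; simp [ha0]
    by_cases hb0 : b = 0
    · left; simp [hb0]
    right
    rw [hw.map_mul a b ha0 hb0]
    omega
  one_mem' := Or.inr (le_of_eq hw.map_one.symm)
  add_mem' := by
    rintro a b ha hb
    by_cases ha0 : a = 0
    · simpa [ha0] using hb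
    by_cases hb0 : b = 0
    · simpa [hb0] using ha
    by_cases hab : a + b = 0
    · left; exact hab
    right
    have ha' : 0 ≤ w a := ha.resolve_left ha0
    have hb' : 0 ≤ w b := hb.resolve_left hb0
    exact (le_min ha' hb').trans (hw.map_add a b ha0 hb0 hab)
  zero_mem' := Or.inl rfl
  neg_mem' := by
    rintro a ha
    by_cases ha0 : a = 0
    · left; simp [ha0]
    right
    rw [hw.map_neg ha0]
    exact ha.resolve_left ha0
  mem_or_inv_mem' := by
    intro a
    by_cases ha0 : a = 0
    · left; left; exact ha0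
    rcases le_total 0 (w a) with h | h
    · left; right; exact h
    · right; right
      rw [hw.map_inv ha0]
      omega

theorem mem_valSubring_iff {f : F} : f ∈ hw.valSubring ↔ f = 0 ∨ 0 ≤ w f := Iff.rfl

theorem mem_valSubring_iff_of_ne_zero {f : F} (hf : f ≠ 0) : f ∈ hw.valSubring ↔ 0 ≤ w f :=
  ⟨fun h => h.resolve_left hf, fun h => Or.inr h⟩

theorem isPrincipalIdealRing_valSubring : IsPrincipalIdealRing hw.valSubring := by
  refine ⟨fun I => ?_⟩
  by_cases hI : I = ⊥
  · rw [hI]; exact bot_isPrincipal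
  classical
  -- the set of values of nonzero elements of `I`
  let S : Set ℕ := {k | ∃ a : hw.valSubring, a ∈ I ∧ a ≠ 0 ∧ w (a : F) = k}
  have hS : S.Nonempty := by
    obtain ⟨a, haI, ha0⟩ := Submodule.exists_mem_ne_zero_of_ne_bot hI
    have haF : (a : F) ≠ 0 := by simpa [ne_eq, ZeroMemClass.coe_eq_zero] using ha0
    have hwa : 0 ≤ w (a : F) := (hw.mem_valSubring_iff_of_ne_zero haF).mp a.2
    obtain ⟨k, hk⟩ := Int.eq_ofNat_of_zero_le hwa
    exact ⟨k, a, haI, ha0, hk⟩
  obtain ⟨a, haI, ha0, hak⟩ := Nat.sInf_mem hS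
  have haF : (a : F) ≠ 0 := by simpa [ne_eq, ZeroMemClass.coe_eq_zero] using ha0
  refine ⟨⟨a, ?_⟩⟩
  apply le_antisymm
  · intro b hbI
    rw [Ideal.submodule_span_eq, Ideal.mem_span_singleton]
    by_cases hb0 : b = 0
    · rw [hb0]; exact dvd_zero _
    have hbF : (b : F) ≠ 0 := by simpa [ne_eq, ZeroMemClass.coe_eq_zero] using hb0
    have hwb : 0 ≤ w (b : F) := (hw.mem_valSubring_iff_of_ne_zero hbF).mp b.2
    obtain ⟨k, hk⟩ := Int.eq_ofNat_of_zero_le hwb
    have hkS : k ∈ S := ⟨b, hbI, hb0, hk⟩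
    have hle : sInf S ≤ k := Nat.sInf_le hkS
    have hq : (b : F) * (a : F)⁻¹ ∈ hw.valSubring := by
      right
      rw [hw.map_mul _ _ hbF (inv_ne_zero haF), hw.map_inv haF, hk, hak]
      have : ((sInf S : ℕ) : ℤ) ≤ (k : ℤ) := by exact_mod_cast hle
      omega
    refine ⟨⟨(b : F) * (a : F)⁻¹, hq⟩, Subtype.ext ?_⟩
    show (b : F) = (a : F) * ((b : F) * (a : F)⁻¹)
    field_simp
  · rw [Ideal.submodule_span_eq, Ideal.span_le, Set.singleton_subset_iff]
    exact haI

/-- The place attached to a valuation function taking a positive value somewhere. -/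
def place {x : F} (hx0 : x ≠ 0) (hx : 0 < w x) : Place K F where
  toValuationSubring := hw.valSubring
  algebraMap_mem' := by
    intro a
    by_cases ha : a = 0
    · left; simp [ha]
    · right; rw [hw.map_const a ha]
  ne_top' := by
    intro htop
    have hmem : x⁻¹ ∈ hw.valSubring := by rw [htop]; exact ValuationSubring.mem_top _
    have := (hw.mem_valSubring_iff_of_ne_zero (inv_ne_zero hx0)).mp hmem
    rw [hw.map_inv hx0] at this
    omega
  isPrincipalIdealRing' := hw.isPrincipalIdealRing_valSubring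

@[simp] theorem place_toValuationSubring {x : F} (hx0 : x ≠ 0) (hx : 0 < w x) :
    (hw.place hx0 hx).toValuationSubring = hw.valSubring := rfl

/-- `w` is a positive multiple of the normalised order at its place. -/
theorem exists_eq_mul_ord {x : F} (hx0 : x ≠ 0) (hx : 0 < w x) :
    ∃ (m : ℤ) (t : F), 0 < m ∧ t ≠ 0 ∧ w t = m ∧ (hw.place hx0 hx).ord t = 1 ∧
      ∀ f : F, f ≠ 0 → w f = m * (hw.place hx0 hx).ord f := by
  set v := hw.place hx0 hx with hv
  obtain ⟨π, hπ⟩ := acl_exists_irreducible v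
  have hπ0 : (π : F) ≠ 0 := by simpa [ne_eq, ZeroMemClass.coe_eq_zero] using hπ.ne_zero
  have hunit : ∀ u : v.toValuationSubringˣ, w ((u : v.toValuationSubring) : F) = 0 := by
    intro u
    have hu0 : ((u : v.toValuationSubring) : F) ≠ 0 := by
      simp [ne_eq, ZeroMemClass.coe_eq_zero]
    have h1 : 0 ≤ w ((u : v.toValuationSubring) : F) :=
      (hw.mem_valSubring_iff_of_ne_zero hu0).mp (u : v.toValuationSubring).2
    have hinv : (((u⁻¹ : v.toValuationSubringˣ) : v.toValuationSubring) : F)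
        = (((u : v.toValuationSubring) : F))⁻¹ := by
      have h2 : (((u⁻¹ : v.toValuationSubringˣ) : v.toValuationSubring) : F)
          * ((u : v.toValuationSubring) : F) = 1 := by
        have h1 : ((u⁻¹ : v.toValuationSubringˣ) : v.toValuationSubring) * (u : v.toValuationSubring)
            = 1 := u.inv_mul
        exact congrArg Subtype.val h1
      exact eq_inv_of_mul_eq_one_left h2
    have h3 : 0 ≤ w (((u : v.toValuationSubring) : F))⁻¹ := by
      rw [← hinv]
      have hne : (((u⁻¹ : v.toValuationSubringˣ) : v.toValuationSubring) : F) ≠ 0 := by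
        simp [ne_eq, ZeroMemClass.coe_eq_zero]
      exact (hw.mem_valSubring_iff_of_ne_zero hne).mp
        ((u⁻¹ : v.toValuationSubringˣ) : v.toValuationSubring).2
    rw [hw.map_inv hu0] at h3
    omega
  have hmain : ∀ f : F, f ≠ 0 → w f = w (π : F) * v.ord f := by
    intro f hf
    obtain ⟨u, hu⟩ := v.exists_unit_mul_zpow hf hπ
    have hu0 : ((u : v.toValuationSubring) : F) ≠ 0 := by
      simp [ne_eq, ZeroMemClass.coe_eq_zero]
    conv_lhs => rw [hu]
    rw [hw.map_mul _ _ hu0 (zpow_ne_zero _ hπ0), hunit u, hw.map_zpow hπ0]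
    ring
  have hm0 : 0 ≤ w (π : F) := (hw.mem_valSubring_iff_of_ne_zero hπ0).mp π.2
  have hmpos : 0 < w (π : F) := by
    rcases lt_or_eq_of_le hm0 with h | h
    · exact h
    · exfalso
      have := hmain x hx0
      rw [← h, zero_mul] at this
      omega
  exact ⟨w (π : F), π, hmpos, hπ0, rfl, v.ord_coe_irreducible hπ, hmain⟩

theorem place_ord_pos {x : F} (hx0 : x ≠ 0) (hx : 0 < w x) : 0 < (hw.place hx0 hx).ord x := by
  obtain ⟨m, t, hm, -, -, -, h⟩ := hw.exists_eq_mul_ord hx0 hx
  have h1 := h x hx0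
  have h2 : 0 < m * (hw.place hx0 hx).ord x := by rw [← h1]; exact hx
  exact (mul_pos_iff_of_pos_left hm).mp h2

theorem place_ord_nonneg_iff {x : F} (hx0 : x ≠ 0) (hx : 0 < w x) {f : F} (hf : f ≠ 0) :
    0 ≤ (hw.place hx0 hx).ord f ↔ 0 ≤ w f := by
  rw [← acl_mem_iff_ord_nonneg _ hf, place_toValuationSubring,
    hw.mem_valSubring_iff_of_ne_zero hf]

end IsValFun

end Fermat.Agent.X0
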