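import Mathlib
import Fermat.Prelude.Def_AlgebraicCurve_CanonicalDivisor
import Fermat.Agent.X0.Alg.Dict
import Fermat.Agent.X0.ACL.PlaceOfVal

/-!
# X0 / ACL, part 2: the abstract counting lemma over a Dedekind model

`card_places_eq_card_orbits_of_model`: the places of `F/K` at which `x` vanishes are in bijection
with the orbits of a permutation `ε` on a finite set `C` carrying a family of valuations `w c`,
under the hypotheses of the abstract counting lemma.
-/

set_option autoImplicit false

open AlgebraicCurve IsDedekindDomain WithZero MulAction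

namespace Fermat.Agent.X0

section Combinatorics

/-- A surjection `π : Q → P` with `e (π q) ≤ sz q`, positive sizes and equal total sums is
a bijection (on cardinalities). -/
theorem acl_card_eq_of_sum_eq {P Q : Type*} [Fintype P] [Fintype Q] (e : P → ℕ) (sz : Q → ℕ)
    (hsz : ∀ q, 0 < sz q) (π : Q → P) (hπ : Function.Surjective π)
    (hle : ∀ q, e (π q) ≤ sz q) (hsum : ∑ p, e p = ∑ q, sz q) :
    Fintype.card P = Fintype.card Q := by
  classical
  choose s hs using hπ
  have hinj : Function.Injective s := fun a b hab => by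
    have := congrArg π hab
    rwa [hs, hs] at this
  have hsurj : Function.Surjective s := by
    by_contra hns
    obtain ⟨q0, hq0⟩ := not_forall.mp hns
    have h1 : ∑ p, e p ≤ ∑ p, sz (s p) :=
      Finset.sum_le_sum fun p _ => by
        have := hle (s p)
        rwa [hs] at this
    have h2 : ∑ p, sz (s p) = ∑ q ∈ Finset.univ.image s, sz q := by
      rw [Finset.sum_image]
      intro a _ b _ hab
      exact hinj hab
    have h3 : ∑ q ∈ Finset.univ.image s, sz q < ∑ q, sz q := by
      apply Finset.sum_lt_sum_of_subset (Finset.subset_univ _) (Finset.mem_univ q0)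
      · intro hmem
        obtain ⟨p, -, hp⟩ := Finset.mem_image.mp hmem
        exact hq0 ⟨p, hp⟩
      · exact hsz q0
      · intro j _ _
        exact Nat.zero_le _
    omega
  exact Fintype.card_of_bijective ⟨hinj, hsurj⟩

end Combinatorics

variable {K F : Type*} [Field K] [Field F] [Algebra K F]

section Separation

variable {R : Type*} [CommRing R] [IsDedekindDomain R] [Algebra R F] [IsFractionRing R F]
  [Algebra K R] [IsScalarTower K R F]

/-- Prime avoidance in a Dedekind model: a place containing `R` which differs from finitely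
many other such places can be separated from them by a function. -/
theorem acl_exists_separating {ι : Type*} [Finite ι] (v : Place K F) (u : ι → Place K F)
    (hv : ∀ r : R, algebraMap R F r ∈ v.toValuationSubring)
    (hu : ∀ i, ∀ r : R, algebraMap R F r ∈ (u i).toValuationSubring)
    (hne : ∀ i, u i ≠ v) :
    ∃ f : F, f ≠ 0 ∧ v.ord f < 0 ∧ ∀ i, (u i).ord f = 0 := by
  classical
  cases nonempty_fintype ι
  obtain ⟨Pv, hPv⟩ := Place.exists_ofHeightOneSpectrum_eq (K := K) v hv
  have hPu : ∀ i, ∃ P : HeightOneSpectrum R, Place.ofHeightOneSpectrum (K := K) (F := F) P = u i :=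
    fun i => Place.exists_ofHeightOneSpectrum_eq (K := K) (u i) (hu i)
  choose Pu hPu using hPu
  -- an element of `Pv` outside all `Pu i`, and nonzero
  have hex : ∃ g : R, g ∈ Pv.asIdeal ∧ g ≠ 0 ∧ ∀ i, g ∉ (Pu i).asIdeal := by
    rcases isEmpty_or_nonempty ι with hι | hι
    · obtain ⟨g, hg, hg0⟩ := Submodule.exists_mem_ne_zero_of_ne_bot Pv.ne_bot
      exact ⟨g, hg, hg0, fun i => (hι.false i).elim⟩
    · obtain ⟨i0⟩ := hι
      have hnot : ¬ ((Pv.asIdeal : Set R) ⊆ ⋃ i ∈ ((Finset.univ : Finset ι) : Set ι),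
          ((Pu i).asIdeal : Set R)) := by
        intro hsub
        rw [Ideal.subset_union_prime i0 i0 (fun i _ _ _ => (Pu i).isPrime)] at hsub
        obtain ⟨i, -, hle⟩ := hsub
        have heq : Pv.asIdeal = (Pu i).asIdeal :=
          Pv.isMaximal.eq_of_le (Pu i).isPrime.ne_top hle
        have : Pv = Pu i := HeightOneSpectrum.ext heq
        apply hne i
        rw [← hPu i, ← this, hPv]
      rw [Set.not_subset] at hnot
      obtain ⟨g, hgv, hgu⟩ := hnot
      have hgu' : ∀ i, g ∉ (Pu i).asIdeal := by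
        intro i hi
        apply hgu
        simp only [Finset.coe_univ, Set.mem_univ, Set.iUnion_true, Set.mem_iUnion,
          SetLike.mem_coe]
        exact ⟨i, hi⟩
      refine ⟨g, hgv, ?_, hgu'⟩
      rintro rfl
      exact hgu' i0 (Pu i0).asIdeal.zero_mem
  obtain ⟨g, hgv, hg0, hgu⟩ := hex
  have hgF : algebraMap R F g ≠ 0 := by
    intro h0
    apply hg0
    exact (IsFractionRing.injective R F) (by rw [h0, map_zero])
  refine ⟨(algebraMap R F g)⁻¹, inv_ne_zero hgF, ?_, ?_⟩
  · rw [Place.ord_inv, ← hPv, Place.ord_ofHeightOneSpectrum]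
    have hlt : Pv.valuation F (algebraMap R F g) < 1 := (Pv.valuation_lt_one_iff_mem g).mpr hgv
    have hne0 : Pv.valuation F (algebraMap R F g) ≠ 0 := (Valuation.ne_zero_iff _).mpr hgF
    have : WithZero.log (Pv.valuation F (algebraMap R F g)) < 0 := by
      rw [← WithZero.log_one, WithZero.log_lt_log hne0 one_ne_zero]
      exact hlt
    omega
  · intro i
    rw [Place.ord_inv, ← hPu i, Place.ord_ofHeightOneSpectrum]
    have h1 : (Pu i).valuation F (algebraMap R F g) = 1 :=
      ((Pu i).valuation_eq_one_iff_notMem).mpr (hgu i)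
    rw [h1, WithZero.log_one]
    simp

end Separation

section Main

variable {R : Type*} [CommRing R] [IsDedekindDomain R] [Algebra R F] [IsFractionRing R F]
  [Algebra K R] [IsScalarTower K R F]

/-- Completeness: under `w_complete`, every place above `x = 0` is the place of some `w c`. -/
theorem acl_exists_place_eq_of_model {x : F} (hx0 : x ≠ 0)
    (hR : ∀ v : Place K F, 0 < v.ord x → ∀ r : R, algebraMap R F r ∈ v.toValuationSubring)
    {C : Type*} [Finite C] (w : C → F → ℤ) (hw : ∀ c, IsValFun K (w c)) (hwx : ∀ c, 0 < w c x)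
    (w_complete : ∀ f : F, f ≠ 0 → (∀ c, 0 ≤ w c f) →
      ∀ v : Place K F, 0 < v.ord x → 0 ≤ v.ord f)
    (v : Place K F) (hv : 0 < v.ord x) : ∃ c, (hw c).place hx0 (hwx c) = v := by
  by_contra hno
  have hne : ∀ c, (hw c).place hx0 (hwx c) ≠ v := fun c hc => hno ⟨c, hc⟩
  obtain ⟨f, hf0, hfv, hfu⟩ := acl_exists_separating (R := R) v
    (fun c => (hw c).place hx0 (hwx c))
    (hR v hv) (fun c => hR _ ((hw c).place_ord_pos hx0 (hwx c))) hne
  have hwf : ∀ c, 0 ≤ w c f := by
    intro c
    rw [← (hw c).place_ord_nonneg_iff hx0 (hwx c) hf0]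
    exact le_of_eq (hfu c).symm
  have := w_complete f hf0 hwf v hv
  omega

/-- Under the hypotheses of the abstract counting lemma, the ramification index of every place
above `x = 0` divides `e₀`. -/
theorem acl_ord_dvd_of_model {x : F} (hx0 : x ≠ 0)
    (hR : ∀ v : Place K F, 0 < v.ord x → ∀ r : R, algebraMap R F r ∈ v.toValuationSubring)
    {C : Type*} [Finite C] (e₀ : ℕ) (he₀ : 0 < e₀) (w : C → F → ℤ)
    (w_mul : ∀ c f g, f ≠ 0 → g ≠ 0 → w c (f * g) = w c f + w c g)
    (w_add : ∀ c f g, f ≠ 0 → g ≠ 0 → f + g ≠ 0 → min (w c f) (w c g) ≤ w c (f + g))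
    (w_const : ∀ c (a : K), a ≠ 0 → w c (algebraMap K F a) = 0)
    (w_x : ∀ c, w c x = e₀)
    (w_complete : ∀ f : F, f ≠ 0 → (∀ c, 0 ≤ w c f) →
      ∀ v : Place K F, 0 < v.ord x → 0 ≤ v.ord f)
    (v : Place K F) (hv : 0 < v.ord x) : v.ord x ∣ (e₀ : ℤ) := by
  have hw : ∀ c, IsValFun K (w c) := fun c => ⟨w_mul c, w_add c, w_const c⟩
  have hwx : ∀ c, 0 < w c x := fun c => by rw [w_x c]; exact_mod_cast he₀
  obtain ⟨c, rfl⟩ := acl_exists_place_eq_of_model (R := R) hx0 hR w hw hwx w_complete v hv
  obtain ⟨m, t, -, -, -, -, hmul⟩ := (hw c).exists_eq_mul_ord hx0 (hwx c)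
  have hx := hmul x hx0
  rw [w_x c] at hx
  exact ⟨m, by rw [hx]; ring⟩

/-- **Abstract counting lemma** over a Dedekind model `R` of the places above `x = 0`. -/
theorem card_places_eq_card_orbits_of_model {x : F} {n : ℕ} (hx0 : x ≠ 0)
    (hR : ∀ v : Place K F, 0 < v.ord x → ∀ r : R, algebraMap R F r ∈ v.toValuationSubring)
    (hfin : {v : Place K F | 0 < v.ord x}.Finite)
    (hsum : ∑ v ∈ hfin.toFinset, v.ord x = n)
    {C : Type*} [Fintype C] (hC : Fintype.card C = n) (ε : Equiv.Perm C) (e₀ : ℕ) (he₀ : 0 < e₀)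
    (hε : ε ^ e₀ = 1) (w : C → F → ℤ)
    (w_mul : ∀ c f g, f ≠ 0 → g ≠ 0 → w c (f * g) = w c f + w c g)
    (w_add : ∀ c f g, f ≠ 0 → g ≠ 0 → f + g ≠ 0 → min (w c f) (w c g) ≤ w c (f + g))
    (w_const : ∀ c (a : K), a ≠ 0 → w c (algebraMap K F a) = 0)
    (w_x : ∀ c, w c x = e₀)
    (w_eps : ∀ c f, w (ε c) f = w c f)
    (w_div : ∀ c (k : ℕ), k ∣ e₀ → (ε ^ k) c = c → ∀ f, f ≠ 0 → ((e₀ / k : ℕ) : ℤ) ∣ w c f)
    (w_complete : ∀ f : F, f ≠ 0 → (∀ c, 0 ≤ w c f) →
      ∀ v : Place K F, 0 < v.ord x → 0 ≤ v.ord f) :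
    Nat.card {v : Place K F // 0 < v.ord x} =
      Nat.card (MulAction.orbitRel.Quotient (Subgroup.zpowers ε) C) := by
  classical
  have hw : ∀ c, IsValFun K (w c) := fun c => ⟨w_mul c, w_add c, w_const c⟩
  have hwx : ∀ c, 0 < w c x := fun c => by rw [w_x c]; exact_mod_cast he₀
  -- the place attached to `c`
  let pl : C → {v : Place K F // 0 < v.ord x} := fun c =>
    ⟨(hw c).place hx0 (hwx c), (hw c).place_ord_pos hx0 (hwx c)⟩
  have hpl_val : ∀ c, ((pl c : {v : Place K F // 0 < v.ord x}) : Place K F).toValuationSubring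
      = (hw c).valSubring := fun c => rfl
  -- invariance under `ε`
  have hpl_eps : ∀ c, pl (ε c) = pl c := by
    intro c
    apply Subtype.ext
    apply Place.ext
    rw [hpl_val, hpl_val]
    ext f
    rw [IsValFun.mem_valSubring_iff, IsValFun.mem_valSubring_iff, w_eps]
  let H : Subgroup (Equiv.Perm C) :=
    { carrier := {σ | ∀ c, pl (σ c) = pl c}
      mul_mem' := by
        intro σ τ hσ hτ c
        rw [Equiv.Perm.mul_apply, hσ, hτ]
      one_mem' := fun c => rfl
      inv_mem' := by
        intro σ hσ c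
        have := hσ (σ⁻¹ c)
        rw [show σ (σ⁻¹ c) = c from Equiv.apply_symm_apply σ c] at this
        exact this.symm }
  have hH : Subgroup.zpowers ε ≤ H := Subgroup.zpowers_le.mpr hpl_eps
  -- descend to orbits
  let plQ : MulAction.orbitRel.Quotient (Subgroup.zpowers ε) C → {v : Place K F // 0 < v.ord x} :=
    Quotient.lift pl (by
      intro a b hab
      have hab' : a ∈ MulAction.orbit (Subgroup.zpowers ε) b := MulAction.orbitRel_apply.mp hab
      obtain ⟨g, rfl⟩ := hab'
      exact hH g.2 b)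
  have hplQ : ∀ c, plQ (Quotient.mk'' c) = pl c := fun c => rfl
  -- finiteness
  have : Fintype {v : Place K F // 0 < v.ord x} := hfin.fintype
  -- surjectivity of `pl`
  have hsurj : Function.Surjective plQ := by
    intro v
    obtain ⟨c, hc⟩ := acl_exists_place_eq_of_model (R := R) hx0 hR w hw hwx w_complete v.1 v.2
    exact ⟨Quotient.mk'' c, by rw [hplQ]; exact Subtype.ext hc⟩
  -- the ramification bound
  have hle : ∀ c, ((pl c : {v : Place K F // 0 < v.ord x}) : Place K F).ord x ≤
      (Function.minimalPeriod (ε • ·) c : ℤ) := by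
    intro c
    obtain ⟨m, t, hm, ht0, hwt, -, hmul⟩ := (hw c).exists_eq_mul_ord hx0 (hwx c)
    set k := Function.minimalPeriod (ε • ·) c with hk
    have hper : Function.IsPeriodicPt (ε • ·) e₀ c := by
      show (ε • ·)^[e₀] c = c
      have : ((ε • ·) : C → C) = ⇑ε := rfl
      rw [this, Equiv.Perm.iterate_eq_pow, hε]
      rfl
    have hkdvd : k ∣ e₀ := hper.minimalPeriod_dvd
    have hfix : (ε ^ k) c = c := by
      have h := Function.isPeriodicPt_minimalPeriod (ε • ·) c
      have : ((ε • ·) : C → C) = ⇑ε := rfl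
      rw [this] at h
      have h' : (⇑ε)^[k] c = c := h
      rwa [Equiv.Perm.iterate_eq_pow] at h'
    have hdiv := w_div c k hkdvd hfix t ht0
    rw [hwt] at hdiv
    have hx := hmul x hx0
    rw [w_x c] at hx
    -- `(e₀ / k) ∣ m`, `e₀ = m * ord x`
    obtain ⟨q, hq⟩ := hkdvd
    have hkpos : 0 < k := by
      rcases Nat.eq_zero_or_pos k with h | h
      · rw [h, zero_mul] at hq; omega
      · exact h
    have hdivq : e₀ / k = q := by rw [hq, Nat.mul_div_cancel_left _ hkpos]
    rw [hdivq] at hdiv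
    have hqpos : 0 < q := by
      rcases Nat.eq_zero_or_pos q with h | h
      · rw [h, mul_zero] at hq; omega
      · exact h
    have hqm : (q : ℤ) ≤ m := Int.le_of_dvd hm hdiv
    have hordpos : 0 < ((pl c : {v : Place K F // 0 < v.ord x}) : Place K F).ord x := (pl c).2
    show ((hw c).place hx0 (hwx c)).ord x ≤ (k : ℤ)
    set o := ((hw c).place hx0 (hwx c)).ord x with ho
    have hordpos' : 0 < o := hordpos
    have h1 : (k : ℤ) * q = m * o := by
      rw [← hx, hq]; push_cast; ring
    by_contra hcon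
    have hcon' : (k : ℤ) < o := not_le.mp hcon
    have : (k : ℤ) * q < m * o := by
      calc (k : ℤ) * q ≤ k * m := by
            apply mul_le_mul_of_nonneg_left hqm; exact_mod_cast hkpos.le
        _ = m * k := by ring
        _ < m * o := by apply mul_lt_mul_of_pos_left hcon' hm
    omega
  -- counting
  have hcount := acl_card_eq_of_sum_eq
    (P := {v : Place K F // 0 < v.ord x})
    (Q := MulAction.orbitRel.Quotient (Subgroup.zpowers ε) C)
    (fun v => (v.1.ord x).toNat) (fun q => Nat.card q.orbit)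
    (by
      intro q
      induction q using Quotient.inductionOn' with
      | h c =>
        rw [MulAction.orbitRel.Quotient.orbit_mk]
        have : Nonempty (MulAction.orbit (Subgroup.zpowers ε) c) :=
          (MulAction.nonempty_orbit c).to_subtype
        exact Nat.card_pos)
    plQ hsurj
    (by
      intro q
      induction q using Quotient.inductionOn' with
      | h c =>
        rw [hplQ, MulAction.orbitRel.Quotient.orbit_mk, Nat.card_eq_fintype_card,
          ← MulAction.minimalPeriod_eq_card]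
        have := hle c
        omega)
    (by
      have h1 : ∑ p : {v : Place K F // 0 < v.ord x}, (p.1.ord x).toNat = n := by
        have h2 : ((∑ p : {v : Place K F // 0 < v.ord x}, (p.1.ord x).toNat : ℕ) : ℤ) = n := by
          rw [← hsum]
          push_cast
          have h3 : ∑ p : {v : Place K F // 0 < v.ord x}, (((p.1.ord x).toNat : ℕ) : ℤ)
              = ∑ p : {v : Place K F // 0 < v.ord x}, p.1.ord x :=
            Finset.sum_congr rfl fun p _ => Int.toNat_of_nonneg p.2.le
          rw [h3]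
          rw [← Finset.sum_subtype (p := fun v : Place K F => 0 < v.ord x)
            (f := fun v : Place K F => v.ord x) hfin.toFinset]
          intro v
          rw [Set.Finite.mem_toFinset]
          rfl
        exact_mod_cast h2
      rw [h1, ← hC, ← Nat.card_eq_fintype_card,
        Nat.card_congr (MulAction.selfEquivSigmaOrbits' (Subgroup.zpowers ε) C), Nat.card_sigma])
  rw [Nat.card_eq_fintype_card, Nat.card_eq_fintype_card]
  exact hcount

/-- **Abstract counting lemma** over a Dedekind model, with the divisibility of the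
ramification indices. -/
theorem card_places_eq_card_orbits_and_dvd_of_model {x : F} {n : ℕ} (hx0 : x ≠ 0)
    (hR : ∀ v : Place K F, 0 < v.ord x → ∀ r : R, algebraMap R F r ∈ v.toValuationSubring)
    (hfin : {v : Place K F | 0 < v.ord x}.Finite)
    (hsum : ∑ v ∈ hfin.toFinset, v.ord x = n)
    {C : Type*} [Fintype C] (hC : Fintype.card C = n) (ε : Equiv.Perm C) (e₀ : ℕ) (he₀ : 0 < e₀)
    (hε : ε ^ e₀ = 1) (w : C → F → ℤ)
    (w_mul : ∀ c f g, f ≠ 0 → g ≠ 0 → w c (f * g) = w c f + w c g)
    (w_add : ∀ c f g, f ≠ 0 → g ≠ 0 → f + g ≠ 0 → min (w c f) (w c g) ≤ w c (f + g))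
    (w_const : ∀ c (a : K), a ≠ 0 → w c (algebraMap K F a) = 0)
    (w_x : ∀ c, w c x = e₀)
    (w_eps : ∀ c f, w (ε c) f = w c f)
    (w_div : ∀ c (k : ℕ), k ∣ e₀ → (ε ^ k) c = c → ∀ f, f ≠ 0 → ((e₀ / k : ℕ) : ℤ) ∣ w c f)
    (w_complete : ∀ f : F, f ≠ 0 → (∀ c, 0 ≤ w c f) →
      ∀ v : Place K F, 0 < v.ord x → 0 ≤ v.ord f) :
    Nat.card {v : Place K F // 0 < v.ord x} =
      Nat.card (MulAction.orbitRel.Quotient (Subgroup.zpowers ε) C) ∧
    ∀ v : Place K F, 0 < v.ord x → v.ord x ∣ (e₀ : ℤ) :=
  ⟨card_places_eq_card_orbits_of_model (R := R) hx0 hR hfin hsum hC ε e₀ he₀ hε w w_mul w_add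
      w_const w_x w_eps w_div w_complete,
    acl_ord_dvd_of_model (R := R) hx0 hR e₀ he₀ w w_mul w_add w_const w_x w_complete⟩

end Main

end Fermat.Agent.X0
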